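import Fermat.Agent.S22_helper97.Hecke
import Fermat.Agent.S21_helper65.Existence

set_option autoImplicit false

open UpperHalfPlane hiding I
open ModularForm Derivative Complex Filter Topology CongruenceSubgroup
open scoped MatrixGroups ModularForm Manifold
open ModularCurve ModularCurve.Period
open Fermat.Agent.S22_helper97 Fermat.Agent.S21_helper65
open P2MW.S_ModularForm_heckeT_slash_eq_self_of_mem_Gamma0.ModularForm.HeckeSlashInvariance

namespace Fermat.Agent.S16_helper13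

variable {N : ℕ} [NeZero N]

/-- The weight two Eichler integral (normalised by `D = (2πi)⁻¹ d/dτ`). -/
noncomputable def eich (f : CuspForm (Gamma0 N) 2) : ℍ → ℂ := eichlerFun (N := N) (m := 1) f

theorem eich_mdiff (f : CuspForm (Gamma0 N) 2) : MDiff (eich f) := eichlerFun_mdiff (m := 1) f

theorem eich_zero (f : CuspForm (Gamma0 N) 2) : IsZeroAtImInfty (eich f) :=
  eichlerFun_zero (m := 1) f

theorem D_eich (f : CuspForm (Gamma0 N) 2) : D (eich f) = ⇑f := by
  have := iterate_D_eichlerFun (N := N) (m := 1) f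
  simpa [eich] using this

/-- The primitive `(2πi)⁻¹ • eich f`. -/
noncomputable def prim (f : CuspForm (Gamma0 N) 2) : ℍ → ℂ :=
  (2 * (Real.pi : ℂ) * I)⁻¹ • eich f

theorem prim_apply (f : CuspForm (Gamma0 N) 2) (τ : ℍ) :
    prim f τ = (2 * (Real.pi : ℂ) * I)⁻¹ * eich f τ := rfl

theorem hasEquivariantPrimitive_prim (f : CuspForm (Gamma0 N) 2) :
    HasEquivariantPrimitive N f (prim f) := by
  have hm : MDiff (prim f) := (eich_mdiff f).const_smul (2 * (Real.pi : ℂ) * I)⁻¹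
  apply hasEquivariantPrimitive_of f
  · apply isPrim_of_D hm
    rw [prim, normalizedDerivOfComplex_smul _ _ (eich_mdiff f), D_eich]
    funext τ
    simp only [Pi.smul_apply, smul_eq_mul]
  · have h2 : Tendsto (eich f) atImInfty (𝓝 0) := eich_zero f
    have := h2.const_mul (2 * (Real.pi : ℂ) * I)⁻¹
    rw [mul_zero] at this
    exact this

/-- The (normalised) period: `per f γ = 2πi · periodMap N f γ`. -/
noncomputable def per (f : CuspForm (Gamma0 N) 2) (γ : Gamma0 N) : ℂ :=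
  (2 * (Real.pi : ℂ) * I) * periodMap N f (Additive.ofMul γ)

theorem eich_smul_sub (f : CuspForm (Gamma0 N) 2) (γ : Gamma0 N) (z : ℍ) :
    eich f ((γ : SL(2, ℤ)) • z) - eich f z = per f γ := by
  rw [per, periodMap_apply f (hasEquivariantPrimitive_prim f) γ z, prim_apply, prim_apply]
  field_simp [two_pi_I_ne_zero']

theorem eich_slash (f : CuspForm (Gamma0 N) 2) (γ : Gamma0 N) :
    eich f ∣[(0 : ℤ)] (γ : SL(2, ℤ)) = eich f + fun _ => per f γ := by
  funext z
  rw [slash_zero_apply, Pi.add_apply, ← eich_smul_sub f γ z]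
  ring

theorem const_slash_zero (g : GL (Fin 2) ℝ) (hdet : 0 < g.val.det) (c : ℂ) :
    (fun _ : ℍ => c) ∣[(0 : ℤ)] g = fun _ => c * ((g.val.det : ℝ) : ℂ)⁻¹ := by
  funext τ
  rw [ModularForm.slash_apply]
  simp [σ, hdet, abs_of_pos hdet]

theorem eich_heckeT {p : ℕ} (hp : p.Prime) (hpN : ¬ p ∣ N) (f : CuspForm (Gamma0 N) 2) :
    eich (CuspForm.heckeTLin 2 hp hpN f) = (p : ℂ) • heckeT 0 p (eich f) := by
  have := eichlerFun_heckeT (N := N) (m := 1) hp hpN f
  simpa [eich] using this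

theorem per_heckeT {p : ℕ} [NeZero p] (hp : p.Prime) (hpN : ¬ p ∣ N) (f : CuspForm (Gamma0 N) 2)
    (γ : Gamma0 N) (γ' : OnePoint (ZMod p) → Gamma0 N) (σ : Equiv.Perm (OnePoint (ZMod p)))
    (hmul : ∀ x, heckeRep p x * Matrix.SpecialLinearGroup.mapGL ℝ (γ : SL(2, ℤ)) =
      Matrix.SpecialLinearGroup.mapGL ℝ (γ' x : SL(2, ℤ)) * heckeRep p (σ x)) :
    per (CuspForm.heckeTLin 2 hp hpN f) γ = ∑ x, per f (γ' x) := by
  have : Fact p.Prime := ⟨hp⟩
  have hp0 : (p : ℂ) ≠ 0 := by exact_mod_cast hp.ne_zero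
  set E := eich f with hE
  have h1 : (heckeT 0 p E) ∣[(0 : ℤ)] (γ : SL(2, ℤ)) =
      ∑ x : OnePoint (ZMod p), (E ∣[(0 : ℤ)] (γ' x : SL(2, ℤ))) ∣[(0 : ℤ)] heckeRep p (σ x) := by
    rw [heckeT_eq_sum_onePoint, ModularForm.SL_slash, SlashAction.sum_slash]
    refine Finset.sum_congr rfl fun x _ => ?_
    rw [← SlashAction.slash_mul]
    change E ∣[(0 : ℤ)] (heckeRep p x * Matrix.SpecialLinearGroup.mapGL ℝ (γ : SL(2, ℤ))) = _
    rw [hmul x, SlashAction.slash_mul]
    rfl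
  have h2 : heckeT 0 p E = ∑ x : OnePoint (ZMod p), E ∣[(0 : ℤ)] heckeRep p (σ x) := by
    rw [heckeT_eq_sum_onePoint]
    exact (Equiv.sum_comp σ (fun x => E ∣[(0 : ℤ)] heckeRep p x)).symm
  have hdet : ∀ x : OnePoint (ZMod p), (heckeRep p x).val.det = (p : ℝ) := by
    intro x
    induction x using OnePoint.rec with
    | infty => exact val_det_heckeDiagMatrix hp.ne_zero
    | coe j => exact val_det_heckeMatrix hp.ne_zero _
  have h3 : (heckeT 0 p E) ∣[(0 : ℤ)] (γ : SL(2, ℤ)) =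
      heckeT 0 p E + fun _ => (∑ x, per f (γ' x)) * (p : ℂ)⁻¹ := by
    rw [h1]
    conv_rhs => rw [h2]
    have : ∀ x : OnePoint (ZMod p),
        (E ∣[(0 : ℤ)] (γ' x : SL(2, ℤ))) ∣[(0 : ℤ)] heckeRep p (σ x) =
          E ∣[(0 : ℤ)] heckeRep p (σ x) + fun _ => per f (γ' x) * (p : ℂ)⁻¹ := by
      intro x
      rw [hE, eich_slash f (γ' x), SlashAction.add_slash,
        const_slash_zero _ (by rw [hdet]; exact_mod_cast hp.pos), hdet]
      simp
    simp only [this, Finset.sum_add_distrib]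
    congr 1
    funext z
    simp [Finset.sum_apply, Finset.sum_mul]
  have h4 := eich_slash (CuspForm.heckeTLin 2 hp hpN f) γ
  rw [eich_heckeT hp hpN f, SL_smul_slash, h3] at h4
  have h5 := congrFun h4 UpperHalfPlane.I
  simp only [Pi.smul_apply, Pi.add_apply, smul_eq_mul] at h5
  have h6 : (p : ℂ) * ((∑ x, per f (γ' x)) * (p : ℂ)⁻¹) = ∑ x, per f (γ' x) := by
    field_simp
  linear_combination h6 - h5

/-- **Hecke equivariance of the period map, `T_p`, `p ∤ N`** (H1-independent form). -/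
theorem periodMap_heckeT {p : ℕ} [NeZero p] (hp : p.Prime) (hpN : ¬ p ∣ N)
    (f : CuspForm (Gamma0 N) 2)
    (γ : Gamma0 N) (γ' : OnePoint (ZMod p) → Gamma0 N) (σ : Equiv.Perm (OnePoint (ZMod p)))
    (hmul : ∀ x, heckeRep p x * Matrix.SpecialLinearGroup.mapGL ℝ (γ : SL(2, ℤ)) =
      Matrix.SpecialLinearGroup.mapGL ℝ (γ' x : SL(2, ℤ)) * heckeRep p (σ x)) :
    periodMap N (CuspForm.heckeTLin 2 hp hpN f) (Additive.ofMul γ) =
      ∑ x, periodMap N f (Additive.ofMul (γ' x)) := by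
  have h := per_heckeT hp hpN f γ γ' σ hmul
  simp only [per, ← Finset.mul_sum] at h
  exact mul_left_cancel₀ two_pi_I_ne_zero' h

theorem eich_heckeU {q : ℕ} (hq : q ≠ 0) (hqN : q ∣ N) (f : CuspForm (Gamma0 N) 2) :
    eich (CuspForm.heckeULin 2 hqN f) = (q : ℂ) • heckeU 0 q (eich f) := by
  have := eichlerFun_heckeU (N := N) (m := 1) hq hqN f
  simpa [eich] using this

theorem per_heckeU {q : ℕ} [NeZero q] (hqN : q ∣ N) (f : CuspForm (Gamma0 N) 2)
    (γ : Gamma0 N) (γ' : ZMod q → Gamma0 N) (σ : Equiv.Perm (ZMod q))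
    (hmul : ∀ x : ZMod q, heckeMatrix q x.val * Matrix.SpecialLinearGroup.mapGL ℝ (γ : SL(2, ℤ)) =
      Matrix.SpecialLinearGroup.mapGL ℝ (γ' x : SL(2, ℤ)) * heckeMatrix q (σ x).val) :
    per (CuspForm.heckeULin 2 hqN f) γ = ∑ x, per f (γ' x) := by
  have hq : q ≠ 0 := NeZero.ne q
  have hq0 : (q : ℂ) ≠ 0 := by exact_mod_cast hq
  set E := eich f with hE
  have h1 : (heckeU 0 q E) ∣[(0 : ℤ)] (γ : SL(2, ℤ)) =
      ∑ x : ZMod q, (E ∣[(0 : ℤ)] (γ' x : SL(2, ℤ))) ∣[(0 : ℤ)] heckeMatrix q (σ x).val := by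
    rw [heckeU_eq_sum_zmod, ModularForm.SL_slash, SlashAction.sum_slash]
    refine Finset.sum_congr rfl fun x _ => ?_
    rw [← SlashAction.slash_mul]
    change E ∣[(0 : ℤ)] (heckeMatrix q x.val * Matrix.SpecialLinearGroup.mapGL ℝ (γ : SL(2, ℤ))) = _
    rw [hmul x, SlashAction.slash_mul]
    rfl
  have h2 : heckeU 0 q E = ∑ x : ZMod q, E ∣[(0 : ℤ)] heckeMatrix q (σ x).val := by
    rw [heckeU_eq_sum_zmod]
    exact (Equiv.sum_comp σ (fun x => E ∣[(0 : ℤ)] heckeMatrix q x.val)).symm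
  have hdet : ∀ j : ℕ, (heckeMatrix q j).val.det = (q : ℝ) := fun j => val_det_heckeMatrix hq j
  have h3 : (heckeU 0 q E) ∣[(0 : ℤ)] (γ : SL(2, ℤ)) =
      heckeU 0 q E + fun _ => (∑ x, per f (γ' x)) * (q : ℂ)⁻¹ := by
    rw [h1]
    conv_rhs => rw [h2]
    have : ∀ x : ZMod q,
        (E ∣[(0 : ℤ)] (γ' x : SL(2, ℤ))) ∣[(0 : ℤ)] heckeMatrix q (σ x).val =
          E ∣[(0 : ℤ)] heckeMatrix q (σ x).val + fun _ => per f (γ' x) * (q : ℂ)⁻¹ := by
      intro x
      rw [hE, eich_slash f (γ' x), SlashAction.add_slash,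
        const_slash_zero _ (by rw [hdet]; exact_mod_cast Nat.pos_of_ne_zero hq), hdet]
      simp
    simp only [this, Finset.sum_add_distrib]
    congr 1
    funext z
    simp [Finset.sum_apply, Finset.sum_mul]
  have h4 := eich_slash (CuspForm.heckeULin 2 hqN f) γ
  rw [eich_heckeU hq hqN f, SL_smul_slash, h3] at h4
  have h5 := congrFun h4 UpperHalfPlane.I
  simp only [Pi.smul_apply, Pi.add_apply, smul_eq_mul] at h5
  have h6 : (q : ℂ) * ((∑ x, per f (γ' x)) * (q : ℂ)⁻¹) = ∑ x, per f (γ' x) := by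
    field_simp
  linear_combination h6 - h5

/-- **Hecke equivariance of the period map, `U_q`, `q ∣ N`** (H1-independent form). -/
theorem periodMap_heckeU {q : ℕ} [NeZero q] (hqN : q ∣ N) (f : CuspForm (Gamma0 N) 2)
    (γ : Gamma0 N) (γ' : ZMod q → Gamma0 N) (σ : Equiv.Perm (ZMod q))
    (hmul : ∀ x : ZMod q, heckeMatrix q x.val * Matrix.SpecialLinearGroup.mapGL ℝ (γ : SL(2, ℤ)) =
      Matrix.SpecialLinearGroup.mapGL ℝ (γ' x : SL(2, ℤ)) * heckeMatrix q (σ x).val) :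
    periodMap N (CuspForm.heckeULin 2 hqN f) (Additive.ofMul γ) =
      ∑ x, periodMap N f (Additive.ofMul (γ' x)) := by
  have h := per_heckeU hqN f γ γ' σ hmul
  simp only [per, ← Finset.mul_sum] at h
  exact mul_left_cancel₀ two_pi_I_ne_zero' h

end Fermat.Agent.S16_helper13
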